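import Mathlib.NumberTheory.ModularForms.CongruenceSubgroups
import Mathlib.NumberTheory.DirichletCharacter.Basic
import Fermat.Agent.Lifting.CCohom
import Fermat.Agent.HeckeCohom.Operators

/-!
# `Γ₀(N)` acting through a Dirichlet character; the weights of `T_ℓ`
-/

set_option autoImplicit false

noncomputable section

namespace Fermat.Agent.Twist

open CongruenceSubgroup
open scoped MatrixGroups

variable {R : Type*} [CommRing R] (A : Type*) [AddCommGroup A] [Module R A] {N Nε : ℕ}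

theorem intCast_gamma0_one_zero (hN : Nε ∣ N) (γ : Gamma0 N) :
    (((γ : SL(2, ℤ)) 1 0 : ℤ) : ZMod Nε) = 0 :=
  (ZMod.intCast_zmod_eq_zero_iff_dvd _ _).mpr
    ((Int.natCast_dvd_natCast.mpr hN).trans (HeckeCohom.dvd_apply_one_zero N γ))

/-- `γ ↦ ε(d)` on `Γ₀(N)`. -/
def dChar (hN : Nε ∣ N) (ε : DirichletCharacter R Nε) : Gamma0 N →* R where
  toFun γ := ε (((γ : SL(2, ℤ)) 1 1 : ℤ) : ZMod Nε)
  map_one' := by simp
  map_mul' γ δ := by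
    have e : (((γ * δ : Gamma0 N) : SL(2, ℤ)) 1 1 : ℤ) =
        (γ : SL(2, ℤ)) 1 0 * (δ : SL(2, ℤ)) 0 1 + (γ : SL(2, ℤ)) 1 1 * (δ : SL(2, ℤ)) 1 1 := by
      simp [Matrix.mul_apply, Fin.sum_univ_two]
    rw [← map_mul, e]
    push_cast
    rw [intCast_gamma0_one_zero hN γ, zero_mul, zero_add]

theorem dChar_apply (hN : Nε ∣ N) (ε : DirichletCharacter R Nε) (γ : Gamma0 N) :
    dChar hN ε γ = ε (((γ : SL(2, ℤ)) 1 1 : ℤ) : ZMod Nε) := rfl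

theorem dChar_eq_one (hN : Nε ∣ N) (ε : DirichletCharacter R Nε) {γ : Gamma0 N}
    (h : (Nε : ℤ) ∣ (γ : SL(2, ℤ)) 1 1 - 1) : dChar hN ε γ = 1 := by
  have h' := (ZMod.intCast_eq_intCast_iff_dvd_sub 1 ((γ : SL(2, ℤ)) 1 1) Nε).mpr h
  rw [dChar_apply, ← h', Int.cast_one, map_one]

/-- `A(ε)`: `Γ₀(N)` acts on `A` through `d ↦ ε(d)`. -/
def charRep (hN : Nε ∣ N) (ε : DirichletCharacter R Nε) : Representation R (Gamma0 N) A where
  toFun γ := dChar hN ε γ • LinearMap.id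
  map_one' := by ext; simp
  map_mul' γ δ := by
    ext a
    simp [mul_smul, smul_comm (dChar hN ε γ) (dChar hN ε δ)]

@[simp] theorem charRep_apply (hN : Nε ∣ N) (ε : DirichletCharacter R Nε) (γ : Gamma0 N) (a : A) :
    charRep A hN ε γ a = dChar hN ε γ • a := rfl

/-- The weight of `T_ℓ` on `A(ε)`: `1` on `(1 j; 0 ℓ)`, `ε(ℓ)` on `(ℓ 0; 0 1)`. -/
def heckeWeight (ε : DirichletCharacter R Nε) (ℓ : ℕ) (i : HeckeCohom.HeckeIdx N ℓ) :
    A →ₗ[R] A :=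
  (i.1.elim (ε (ℓ : ZMod Nε)) (fun _ => 1) : R) • LinearMap.id

/-- `ε(ℓ)` times the inverse character of the lower right entry of the representatives. -/
def heckeWeightVal (ε : DirichletCharacter R Nε) (ℓ : ℕ) (i : HeckeCohom.HeckeIdx N ℓ) : R :=
  i.1.elim (ε (ℓ : ZMod Nε)) (fun _ => 1)

theorem heckeWeight_apply (ε : DirichletCharacter R Nε) (ℓ : ℕ) (i : HeckeCohom.HeckeIdx N ℓ)
    (a : A) : heckeWeight A ε ℓ i a = heckeWeightVal ε ℓ i • a := rfl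

/-- The integral lower right entry of a representative. -/
def heckeLR (ℓ : ℕ) (i : HeckeCohom.HeckeIdx N ℓ) : ℤ := i.1.elim 1 (fun _ => (ℓ : ℤ))

theorem heckeWeightVal_mul (ε : DirichletCharacter R Nε) (ℓ : ℕ) (i : HeckeCohom.HeckeIdx N ℓ) :
    heckeWeightVal ε ℓ i * ε ((heckeLR ℓ i : ℤ) : ZMod Nε) = ε (ℓ : ZMod Nε) := by
  obtain ⟨_ | x, hi⟩ := i <;> simp [heckeWeightVal, heckeLR]

theorem heckeBeta_row_one (ℓ : ℕ) [NeZero ℓ] (i : HeckeCohom.HeckeIdx N ℓ) :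
    ((HeckeCohom.heckeBeta N ℓ i : GL (Fin 2) ℝ) : Matrix (Fin 2) (Fin 2) ℝ) 1 0 = 0 ∧
    ((HeckeCohom.heckeBeta N ℓ i : GL (Fin 2) ℝ) : Matrix (Fin 2) (Fin 2) ℝ) 1 1 =
      ((heckeLR ℓ i : ℤ) : ℝ) ∧
    ∃ z : ℤ, ((HeckeCohom.heckeBeta N ℓ i : GL (Fin 2) ℝ) : Matrix (Fin 2) (Fin 2) ℝ) 0 1 = z := by
  obtain ⟨_ | x, hi⟩ := i
  · simp [HeckeCohom.heckeBeta, heckeLR, NeZero.ne ℓ]
    exact ⟨0, by simp⟩
  · simp [HeckeCohom.heckeBeta, heckeLR, NeZero.ne ℓ]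
    exact ⟨(x.val : ℤ), by simp [ZMod.natCast_val]⟩

/-- The weights satisfy the compatibility needed by the transfer. -/
theorem heckeWeight_isWeight (hN : Nε ∣ N) (ε : DirichletCharacter R Nε) (ℓ : ℕ) [Fact ℓ.Prime]
    (hℓ : ¬ ℓ ∣ Nε) :
    Lifting.IsWeight (HeckeCohom.isCosetSystem N ℓ) (charRep A hN ε) (heckeWeight A ε ℓ) := by
  intro γ i a
  haveI : NeZero ℓ := ⟨(Fact.out : ℓ.Prime).ne_zero⟩
  set h := HeckeCohom.isCosetSystem N ℓ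
  set c := h.cocycle γ i
  set j := h.perm γ i
  have e := congrArg (fun M : GL (Fin 2) ℝ => (M : Matrix (Fin 2) (Fin 2) ℝ) 1 1) (h.spec γ i)
  simp only [Units.val_mul, Matrix.mul_apply, Fin.sum_univ_two, HeckeCohom.gamma0GL_entry] at e
  obtain ⟨hi0, hi1, -⟩ := heckeBeta_row_one ℓ i
  obtain ⟨-, hj1, z, hz⟩ := heckeBeta_row_one ℓ j
  rw [hi0, hi1, hj1, hz, zero_mul, zero_add] at e
  have e' : heckeLR ℓ i * (γ : SL(2, ℤ)) 1 1 =
      (c : SL(2, ℤ)) 1 0 * z + (c : SL(2, ℤ)) 1 1 * heckeLR ℓ j := by exact_mod_cast e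
  have e2 := congrArg (fun x : ℤ => ε (x : ZMod Nε)) e'
  simp only [Int.cast_mul, Int.cast_add, intCast_gamma0_one_zero hN c, zero_mul, zero_add,
    map_mul] at e2
  simp only [heckeWeight_apply, charRep_apply, dChar_apply, smul_smul]
  congr 1
  have hu : IsUnit (ε ((heckeLR ℓ j : ℤ) : ZMod Nε)) := by
    refine (IsUnit.map ε ?_)
    obtain ⟨_ | x, hi⟩ := j
    · simp [heckeLR]
    · simpa [heckeLR] using
        (ZMod.isUnit_iff_coprime ℓ Nε).mpr ((Fact.out : ℓ.Prime).coprime_iff_not_dvd.mpr hℓ)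
  refine hu.mul_right_cancel ?_
  calc heckeWeightVal ε ℓ i * ε (((c : SL(2, ℤ)) 1 1 : ℤ) : ZMod Nε) * ε ((heckeLR ℓ j : ℤ) : ZMod Nε)
      = heckeWeightVal ε ℓ i * ε ((heckeLR ℓ i : ℤ) : ZMod Nε) *
          ε (((γ : SL(2, ℤ)) 1 1 : ℤ) : ZMod Nε) := by rw [mul_assoc, ← e2, mul_assoc]
    _ = _ := by
        rw [heckeWeightVal_mul, ← heckeWeightVal_mul ε ℓ j]
        ring

end Fermat.Agent.Twist

end
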